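import Mathlib

/-!
The cubic field `ℚ(θ)`, `θ ^ 3 = 2 θ ^ 2 - 2`, of discriminant `-44`:
its integers are `ℤ[θ]`, it has class number one, and units modulo squares are `±1, ±(θ - 1)`.
-/

noncomputable section

namespace Fermat.Agent.Eleven

/-! ### Coordinates -/

/-- The norm form in coordinates. -/
def N3 {R : Type*} [CommRing R] (c : R × R × R) : R :=
  Matrix.det
    !![c.1, -2 * c.2.2, -2 * (c.2.1 + 2 * c.2.2);
       c.2.1, c.1, -2 * c.2.2;
       c.2.2, c.2.1 + 2 * c.2.2, c.1 + 2 * (c.2.1 + 2 * c.2.2)]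

/-- Multiplication in coordinates. -/
def mul3 {R : Type*} [CommRing R] (a b : R × R × R) : R × R × R :=
  let r3 := a.2.1 * b.2.2 + a.2.2 * b.2.1
  let r4 := a.2.2 * b.2.2
  (a.1 * b.1 - 2 * r3 - 4 * r4, a.1 * b.2.1 + a.2.1 * b.1 - 2 * r4,
    a.1 * b.2.2 + a.2.1 * b.2.1 + a.2.2 * b.1 + 2 * r3 + 4 * r4)

theorem N3_eq {R : Type*} [CommRing R] (c : R × R × R) :
    N3 c = c.1 * (c.1 * (c.1 + 2 * (c.2.1 + 2 * c.2.2)) + 2 * c.2.2 * (c.2.1 + 2 * c.2.2))
      + 2 * c.2.2 * (c.2.1 * (c.1 + 2 * (c.2.1 + 2 * c.2.2)) + 2 * c.2.2 * c.2.2)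
      - 2 * (c.2.1 + 2 * c.2.2) * (c.2.1 * (c.2.1 + 2 * c.2.2) - c.1 * c.2.2) := by
  simp only [N3, Matrix.det_fin_three, Matrix.of_apply, Matrix.cons_val', Matrix.cons_val_zero,
    Matrix.cons_val_one, Matrix.cons_val]
  ring

theorem N3_mul {R : Type*} [CommRing R] (a b : R × R × R) :
    N3 (mul3 a b) = N3 a * N3 b := by
  simp only [N3_eq, mul3]; ring

/-! ### The field -/

open Polynomial in
/-- The defining polynomial. -/
abbrev poly : ℚ[X] := X ^ 3 - C 2 * X ^ 2 + C 2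

open Polynomial in
theorem poly_monic : (poly).Monic := by rw [poly]; monicity!

open Polynomial in
theorem poly_natDegree : (poly).natDegree = 3 := by rw [poly]; compute_degree!

open Polynomial in
theorem poly_irreducible : Irreducible poly := by
  rw [irreducible_iff_roots_eq_zero_of_degree_le_three (by rw [poly_natDegree]; norm_num)
    (by rw [poly_natDegree])]
  refine Multiset.eq_zero_of_forall_notMem fun r hr => ?_
  have h : r ^ 3 - 2 * r ^ 2 + 2 = 0 := by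
    have := (mem_roots poly_monic.ne_zero).1 hr
    simpa [poly] using this
  have hint : IsIntegral ℤ r :=
    ⟨X ^ 3 - C 2 * X ^ 2 + C 2, by monicity!, by simpa using h⟩
  obtain ⟨n, hn⟩ := IsIntegrallyClosed.isIntegral_iff.1 hint
  subst hn
  simp only [eq_intCast] at h
  have h' : n ^ 2 * (n - 2) = -2 := by exact_mod_cast (by linear_combination h :
    ((n : ℚ) ^ 2 * (n - 2) = -2))
  have h1 : -2 ≤ n := by nlinarith [sq_nonneg (n + 2), sq_nonneg n]
  have h2 : n ≤ 2 := by nlinarith [sq_nonneg (n - 2), sq_nonneg n]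
  interval_cases n <;> simp_all

instance : Fact (Irreducible poly) := ⟨poly_irreducible⟩

/-- The cubic field. -/
abbrev K := AdjoinRoot poly

instance : FiniteDimensional ℚ K := (AdjoinRoot.powerBasis poly_monic.ne_zero).finite

instance : NumberField K where

theorem finrank_K : Module.finrank ℚ K = 3 := by
  rw [(AdjoinRoot.powerBasis poly_monic.ne_zero).finrank, AdjoinRoot.powerBasis_dim,
    poly_natDegree]

/-- The root. -/
def φ : K := AdjoinRoot.root poly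

theorem φ_eq : φ ^ 3 = 2 * φ ^ 2 - 2 := by
  have h := AdjoinRoot.eval₂_root poly
  simp [poly] at h
  rw [φ]; linear_combination h

/-- Coordinates to elements, over `ℚ`. -/
def elQ (c : ℚ × ℚ × ℚ) : K := (c.1 : K) + (c.2.1 : K) * φ + (c.2.2 : K) * φ ^ 2

theorem elQ_mul (a b : ℚ × ℚ × ℚ) : elQ (mul3 a b) = elQ a * elQ b := by
  simp only [elQ, mul3]; push_cast
  linear_combination (-((a.2.1 : K) * b.2.2 + a.2.2 * b.2.1)
    - (a.2.2 : K) * b.2.2 * (φ + 2)) * φ_eq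

/-- The basis `1, φ, φ ^ 2`. -/
def B : Module.Basis (Fin 3) ℚ K :=
  (AdjoinRoot.powerBasis poly_monic.ne_zero).basis.reindex
    (finCongr (by rw [AdjoinRoot.powerBasis_dim, poly_natDegree]))

theorem B_apply (i : Fin 3) : B i = φ ^ (i : ℕ) := by
  simp [B, φ]

theorem elQ_eq_sum (c : ℚ × ℚ × ℚ) : elQ c = ∑ i, ![c.1, c.2.1, c.2.2] i • B i := by
  simp [Fin.sum_univ_three, B_apply, elQ, Rat.smul_def]

theorem repr_elQ (c : ℚ × ℚ × ℚ) : ⇑(B.repr (elQ c)) = ![c.1, c.2.1, c.2.2] := by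
  rw [elQ_eq_sum, B.repr_sum_self]

theorem elQ_injective : Function.Injective elQ := by
  intro a b h
  have := repr_elQ a
  rw [h, repr_elQ] at this
  have h0 := congrFun this 0; have h1 := congrFun this 1; have h2 := congrFun this 2
  simp at h0 h1 h2
  ext <;> simp_all

theorem exists_elQ (x : K) : ∃ c, elQ c = x :=
  ⟨(B.repr x 0, B.repr x 1, B.repr x 2), by
    rw [elQ_eq_sum]
    refine Eq.trans ?_ (B.sum_repr x)
    rw [Fin.sum_univ_three, Fin.sum_univ_three]; rfl⟩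

theorem leftMul_elQ (c : ℚ × ℚ × ℚ) : Algebra.leftMulMatrix B (elQ c) =
    !![c.1, -2 * c.2.2, -2 * (c.2.1 + 2 * c.2.2);
       c.2.1, c.1, -2 * c.2.2;
       c.2.2, c.2.1 + 2 * c.2.2, c.1 + 2 * (c.2.1 + 2 * c.2.2)] := by
  ext i j
  rw [Algebra.leftMulMatrix_eq_repr_mul, B_apply]
  have e0 : (1 : K) = elQ (1, 0, 0) := by simp [elQ]
  have e1 : φ = elQ (0, 1, 0) := by simp [elQ]
  have e2 : φ ^ 2 = elQ (0, 0, 1) := by simp [elQ]
  fin_cases j
  · simp only [Fin.isValue, Fin.mk_zero, pow_zero, mul_one]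
    rw [repr_elQ]; fin_cases i <;> rfl
  · simp only [Fin.mk_one, pow_one]
    rw [e1, ← elQ_mul, repr_elQ]
    fin_cases i <;> simp [mul3]
  · show B.repr (elQ c * φ ^ 2) i = _
    rw [e2, ← elQ_mul, repr_elQ]
    fin_cases i <;> simp [mul3] <;> ring

theorem norm_elQ (c : ℚ × ℚ × ℚ) : Algebra.norm ℚ (elQ c) = N3 c := by
  rw [Algebra.norm_eq_matrix_det B, leftMul_elQ]; rfl

theorem trace_elQ (c : ℚ × ℚ × ℚ) :
    Algebra.trace ℚ K (elQ c) = 3 * c.1 + 2 * c.2.1 + 4 * c.2.2 := by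
  rw [Algebra.trace_eq_matrix_trace B, leftMul_elQ, Matrix.trace_fin_three]
  simp; ring

/-! ### Integers -/

open NumberField

theorem isIntegral_φ : IsIntegral ℤ φ := by
  refine ⟨Polynomial.X ^ 3 - Polynomial.C 2 * Polynomial.X ^ 2 + Polynomial.C 2, by monicity!, ?_⟩
  simp [φ_eq]

theorem isIntegral_elQ (c : ℤ × ℤ × ℤ) :
    IsIntegral ℤ (elQ ((c.1 : ℚ), (c.2.1 : ℚ), (c.2.2 : ℚ))) := by
  simp only [elQ, Rat.cast_intCast]
  have : ∀ n : ℤ, IsIntegral ℤ (n : K) := fun n => isIntegral_algebraMap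
  exact ((this _).add ((this _).mul isIntegral_φ)).add ((this _).mul (isIntegral_φ.pow 2))

theorem norm_int {x : K} (hx : IsIntegral ℤ x) : ∃ n : ℤ, (n : ℚ) = Algebra.norm ℚ x := by
  simpa using IsIntegrallyClosed.isIntegral_iff.1 (Algebra.isIntegral_norm ℚ hx)

theorem trace_int {x : K} (hx : IsIntegral ℤ x) : ∃ n : ℤ, (n : ℚ) = Algebra.trace ℚ K x := by
  simpa using IsIntegrallyClosed.isIntegral_iff.1 (Algebra.isIntegral_trace (F := K) (L := ℚ) hx)

theorem integral_twentytwo {c : ℚ × ℚ × ℚ} (hc : IsIntegral ℤ (elQ c)) :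
    ∃ d0 d1 d2 t0 t1 t2 : ℤ, d0 = 2 * t0 - 4 * t1 + 6 * t2 ∧ d1 = -4 * t0 + 8 * t1 - t2 ∧
      d2 = 6 * t0 - t1 - 4 * t2 ∧ c = ((d0 : ℚ) / 22, (d1 : ℚ) / 22, (d2 : ℚ) / 22) := by
  have e1 : elQ (mul3 c (0, 1, 0)) = elQ c * φ := by rw [elQ_mul]; simp [elQ]
  have e2 : elQ (mul3 c (0, 0, 1)) = elQ c * φ ^ 2 := by rw [elQ_mul]; simp [elQ]
  obtain ⟨t0, h0⟩ := trace_int hc
  obtain ⟨t1, h1⟩ := trace_int (e1 ▸ hc.mul isIntegral_φ)
  obtain ⟨t2, h2⟩ := trace_int (e2 ▸ hc.mul (isIntegral_φ.pow 2))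
  rw [trace_elQ] at h0 h1 h2
  simp [mul3] at h1 h2
  refine ⟨_, _, _, t0, t1, t2, rfl, rfl, rfl, ?_⟩
  simp only [Prod.ext_iff]
  refine ⟨?_, ?_, ?_⟩ <;> field_simp <;> push_cast <;> linarith

theorem eleven_step {d0 d1 d2 t0 t1 t2 : ℤ} (h0 : d0 = 2 * t0 - 4 * t1 + 6 * t2)
    (h1 : d1 = -4 * t0 + 8 * t1 - t2) (h2 : d2 = 6 * t0 - t1 - 4 * t2) :
    11 ∣ d1 - 9 * d0 ∧ 11 ∣ d2 - 3 * d0 := by
  subst h0 h1 h2
  refine ⟨⟨-2 * t0 + 4 * t1 - 5 * t2, by ring⟩, ⟨t1 - 2 * t2, by ring⟩⟩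

/-- Every algebraic integer of `K` has integer coordinates. -/
theorem exists_int_coords {x : K} (hx : IsIntegral ℤ x) :
    ∃ c : ℤ × ℤ × ℤ, elQ ((c.1 : ℚ), (c.2.1 : ℚ), (c.2.2 : ℚ)) = x := by
  obtain ⟨c, rfl⟩ := exists_elQ x
  obtain ⟨d0, d1, d2, t0, t1, t2, h0, h1, h2, rfl⟩ := integral_twentytwo hx
  -- the prime `2`
  have h11 : IsIntegral ℤ (elQ ((((d0 % 2 : ℤ) : ℚ)) / 2, (((d1 % 2 : ℤ) : ℚ)) / 2,
      (((d2 % 2 : ℤ) : ℚ)) / 2)) := by
    have e : elQ ((((d0 % 2 : ℤ) : ℚ)) / 2, (((d1 % 2 : ℤ) : ℚ)) / 2, (((d2 % 2 : ℤ) : ℚ)) / 2)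
        = (11 : K) * elQ ((d0 : ℚ) / 22, (d1 : ℚ) / 22, (d2 : ℚ) / 22)
          - elQ (((d0 / 2 : ℤ) : ℚ), ((d1 / 2 : ℤ) : ℚ), ((d2 / 2 : ℤ) : ℚ)) := by
      have a0 := Int.emod_add_mul_ediv d0 2
      have a1 := Int.emod_add_mul_ediv d1 2
      have a2 := Int.emod_add_mul_ediv d2 2
      rw [show (11 : K) = elQ (11, 0, 0) by simp [elQ], ← elQ_mul, eq_sub_iff_add_eq]
      have b0 : ((d0 % 2 : ℤ) : ℚ) + 2 * ((d0 / 2 : ℤ) : ℚ) = d0 := by exact_mod_cast a0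
      have b1 : ((d1 % 2 : ℤ) : ℚ) + 2 * ((d1 / 2 : ℤ) : ℚ) = d1 := by exact_mod_cast a1
      have b2 : ((d2 % 2 : ℤ) : ℚ) + 2 * ((d2 / 2 : ℤ) : ℚ) = d2 := by exact_mod_cast a2
      simp only [elQ, mul3, ← b0, ← b1, ← b2]; push_cast; ring
    rw [e]
    exact ((isIntegral_algebraMap (x := (11 : ℤ))).mul hx).sub (isIntegral_elQ (_, _, _))
  obtain ⟨n, hn⟩ := norm_int h11
  rw [norm_elQ, N3_eq] at hn
  dsimp only at hn
  have p0 := Int.emod_two_eq_zero_or_one d0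
  have p1 := Int.emod_two_eq_zero_or_one d1
  have p2 := Int.emod_two_eq_zero_or_one d2
  have hn8 : ((8 * n : ℤ) : ℚ) = ((N3 (d0 % 2, d1 % 2, d2 % 2) : ℤ) : ℚ) := by
    rw [N3_eq]; simp only [Int.cast_mul, Int.cast_add, Int.cast_sub, Int.cast_ofNat]
    rw [hn]; ring
  have hn8' := Int.cast_injective hn8
  have even : d0 % 2 = 0 ∧ d1 % 2 = 0 ∧ d2 % 2 = 0 := by
    rcases p0 with q0 | q0 <;> rcases p1 with q1 | q1 <;> rcases p2 with q2 | q2 <;>
      rw [q0, q1, q2] at hn8' <;> simp [N3_eq] at hn8' <;> omega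
  obtain ⟨⟨D0, rfl⟩, ⟨D1, rfl⟩, ⟨D2, rfl⟩⟩ :=
    (⟨Int.dvd_of_emod_eq_zero even.1, Int.dvd_of_emod_eq_zero even.2.1,
      Int.dvd_of_emod_eq_zero even.2.2⟩ : 2 ∣ d0 ∧ 2 ∣ d1 ∧ 2 ∣ d2)
  -- the prime `11`
  obtain ⟨k1, k2⟩ := eleven_step h0 h1 h2
  set l := D0 % 11 with hl
  obtain ⟨q1, hq1⟩ : 11 ∣ D1 - 9 * l := by omega
  obtain ⟨q2, hq2⟩ : 11 ∣ D2 - 3 * l := by omega
  have hxi : IsIntegral ℤ (elQ ((l : ℚ) / 11, 9 * (l : ℚ) / 11, 3 * (l : ℚ) / 11)) := by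
    have e : elQ ((l : ℚ) / 11, 9 * (l : ℚ) / 11, 3 * (l : ℚ) / 11)
        = elQ (((2 * D0 : ℤ) : ℚ) / 22, ((2 * D1 : ℤ) : ℚ) / 22, ((2 * D2 : ℤ) : ℚ) / 22)
          - elQ (((D0 / 11 : ℤ) : ℚ), (q1 : ℚ), (q2 : ℚ)) := by
      have a0 : (l : ℚ) + 11 * ((D0 / 11 : ℤ) : ℚ) = D0 := by
        exact_mod_cast Int.emod_add_mul_ediv D0 11
      have a1 : (D1 : ℚ) = 9 * l + 11 * q1 := by exact_mod_cast (by omega : D1 = 9 * l + 11 * q1)
      have a2 : (D2 : ℚ) = 3 * l + 11 * q2 := by exact_mod_cast (by omega : D2 = 3 * l + 11 * q2)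
      rw [eq_sub_iff_add_eq]
      push_cast
      simp only [elQ, ← a0, a1, a2]; push_cast; ring
    rw [e]
    exact hx.sub (isIntegral_elQ (_, _, _))
  obtain ⟨m, hm⟩ := norm_int hxi
  rw [norm_elQ, N3_eq] at hm
  dsimp only at hm
  have hm' : ((1331 * m : ℤ) : ℚ) = ((-2057 * l ^ 3 : ℤ) : ℚ) := by push_cast; rw [hm]; ring
  have hm'' := Int.cast_injective hm'
  have l0 : 0 ≤ l := Int.emod_nonneg _ (by norm_num)
  have l1 : l < 11 := Int.emod_lt_of_pos _ (by norm_num)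
  have lz : l = 0 := by
    interval_cases l <;> first | rfl | omega
  refine ⟨(D0 / 11, q1, q2), ?_⟩
  have a0 : D0 = 11 * (D0 / 11) := by omega
  have a1 : D1 = 11 * q1 := by omega
  have a2 : D2 = 11 * q2 := by omega
  congr 1
  simp only [Prod.ext_iff]
  refine ⟨?_, ?_, ?_⟩
  · conv_rhs => rw [a0]
    push_cast; ring
  · rw [a1]; push_cast; ring
  · rw [a2]; push_cast; ring

/-- An element of `𝓞 K` from integer coordinates. -/
def el (c : ℤ × ℤ × ℤ) : 𝓞 K := ⟨_, isIntegral_elQ c⟩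

theorem el_surjective : Function.Surjective el := fun x => by
  obtain ⟨c, hc⟩ := exists_int_coords x.2
  exact ⟨c, Subtype.ext hc⟩

theorem el_injective : Function.Injective el := fun a b h => by
  have := elQ_injective (Subtype.ext_iff.1 h)
  simp only [Prod.ext_iff, Int.cast_inj] at this
  exact Prod.ext this.1 (Prod.ext this.2.1 this.2.2)

theorem el_mul (a b : ℤ × ℤ × ℤ) : el (mul3 a b) = el a * el b := by
  apply Subtype.ext
  show elQ _ = elQ _ * elQ _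
  rw [← elQ_mul]
  congr 1
  simp only [mul3]; push_cast; rfl

/-- Integer coordinates of an element of `𝓞 K`. -/
def co (x : 𝓞 K) : ℤ × ℤ × ℤ := Function.surjInv el_surjective x

@[simp] theorem el_co (x : 𝓞 K) : el (co x) = x := Function.surjInv_eq el_surjective x

@[simp] theorem co_el (c : ℤ × ℤ × ℤ) : co (el c) = c := el_injective (el_co _)

/-- The norm on `𝓞 K`. -/
def nm : 𝓞 K →* ℤ where
  toFun x := N3 (co x)
  map_one' := by
    have : (1 : 𝓞 K) = el (1, 0, 0) :=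
      RingOfIntegers.ext (by rw [show (el (1, 0, 0) : K) = elQ _ from rfl]; simp [elQ])
    simp [this, N3_eq]
  map_mul' x y := by
    conv_lhs => rw [← el_co x, ← el_co y, ← el_mul, co_el, N3_mul]

theorem nm_el (c : ℤ × ℤ × ℤ) : nm (el c) = N3 c := by
  simp [nm]

theorem isUnit_of_nm {x : 𝓞 K} (h : IsUnit (nm x)) : IsUnit x := by
  rw [NumberField.isUnit_iff_norm]
  have e : (x : K) = elQ (((co x).1 : ℚ), ((co x).2.1 : ℚ), ((co x).2.2 : ℚ)) :=
    congrArg Subtype.val (el_co x).symm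
  have : (RingOfIntegers.norm ℚ x : ℚ) = ((nm x : ℤ) : ℚ) := by
    rw [RingOfIntegers.coe_norm, e, norm_elQ]
    show _ = ((N3 (co x) : ℤ) : ℚ)
    simp only [N3_eq]; push_cast; ring
  rw [this]
  rcases Int.isUnit_iff.1 h with h | h <;> simp [h]

/-! ### Discriminant, principal ideals, units -/

/-- The integral basis. -/
def Bint : Module.Basis (Fin 3) ℤ (𝓞 K) :=
  Module.Basis.ofEquivFun
    ({ toFun := fun x => ![(co x).1, (co x).2.1, (co x).2.2]
       invFun := fun v => el (v 0, v 1, v 2)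
       left_inv := fun x => by simp
       right_inv := fun v => by ext i; fin_cases i <;> simp
       map_add' := fun x y => by
        have : el ((co x).1 + (co y).1, (co x).2.1 + (co y).2.1, (co x).2.2 + (co y).2.2)
            = x + y := by
          conv_rhs => rw [← el_co x, ← el_co y]
          refine Subtype.ext ?_
          show elQ _ = elQ _ + elQ _
          simp [elQ]; ring
        rw [← this, co_el]; ext i; fin_cases i <;> rfl
       map_smul' := fun n x => by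
        have : el (n * (co x).1, n * (co x).2.1, n * (co x).2.2) = n • x := by
          conv_rhs => rw [← el_co x]
          refine Subtype.ext ?_
          show elQ _ = algebraMap (𝓞 K) K (n • el (co x))
          rw [map_zsmul, zsmul_eq_mul]
          show elQ _ = (n : K) * elQ _
          simp [elQ]; ring
        rw [RingHom.id_apply, ← this, co_el]; ext i; fin_cases i <;> simp } :
      𝓞 K ≃ₗ[ℤ] (Fin 3 → ℤ))

theorem coe_Bint (i : Fin 3) : (Bint i : K) = φ ^ (i : ℕ) := by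
  rw [Bint, Module.Basis.coe_ofEquivFun]
  show elQ _ = _
  fin_cases i <;> simp [elQ]

theorem discr_K : NumberField.discr K = -44 := by
  rw [← NumberField.discr_eq_discr K Bint, ← Int.cast_inj (α := ℚ)]
  have h := Algebra.discr_localizationLocalization ℤ (nonZeroDivisors ℤ) K Bint (Rₘ := ℚ)
  simp only [eq_intCast] at h
  rw [← h]
  have e : ⇑(Bint.localizationLocalization ℚ (nonZeroDivisors ℤ) K) = fun i : Fin 3 => φ ^ (i:ℕ) := by
    ext i; rw [Module.Basis.localizationLocalization_apply]; exact coe_Bint i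
  rw [e, Algebra.discr_def, Matrix.det_fin_three]
  have e0 : (1 : K) = elQ (1, 0, 0) := by simp [elQ]
  have e1 : φ = elQ (0, 1, 0) := by simp [elQ]
  have e2 : φ ^ 2 = elQ (0, 0, 1) := by simp [elQ]
  have v1 : Algebra.trace ℚ K φ = 2 := by rw [e1, trace_elQ]; simp
  have v2 : Algebra.trace ℚ K (φ ^ 2) = 4 := by rw [e2, trace_elQ]; simp
  have v3 : Algebra.trace ℚ K (φ ^ 3) = 2 := by
    rw [pow_succ, e2, e1, ← elQ_mul, trace_elQ]; simp [mul3]; norm_num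
  have v4 : Algebra.trace ℚ K (φ ^ 4) = 0 := by
    rw [show φ ^ 4 = φ ^ 2 * φ ^ 2 by ring, e2, ← elQ_mul, trace_elQ]; simp [mul3]; norm_num
  have v0 : Algebra.trace ℚ K 1 = 3 := by rw [e0, trace_elQ]; simp
  simp only [Algebra.traceMatrix_apply, Algebra.traceForm_apply, ← pow_add]
  simp only [Fin.isValue, Fin.val_zero, Fin.val_one, Fin.val_two, Nat.reduceAdd, pow_zero, pow_one,
    v0, v1, v2, v3, v4]
  norm_num

theorem nrComplex : InfinitePlace.nrComplexPlaces K = 1 := by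
  have h := NumberField.sign_discr (K := K)
  rw [discr_K] at h
  have h3 := InfinitePlace.card_add_two_mul_card_eq_rank K
  rw [finrank_K] at h3
  change InfinitePlace.nrRealPlaces K + 2 * InfinitePlace.nrComplexPlaces K = 3 at h3
  rcases (show InfinitePlace.nrComplexPlaces K = 0 ∨ InfinitePlace.nrComplexPlaces K = 1 by omega)
    with h0 | h1
  · rw [h0] at h; exact absurd h (by decide)
  · exact h1

instance pid : IsPrincipalIdealRing (𝓞 K) := by
  apply RingOfIntegers.isPrincipalIdealRing_of_abs_discr_lt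
  rw [discr_K, nrComplex, finrank_K]
  have := Real.pi_gt_three
  norm_num [Nat.factorial]
  nlinarith

theorem rank_K : Units.rank K = 1 := by
  have h3 := InfinitePlace.card_add_two_mul_card_eq_rank K
  rw [finrank_K] at h3
  change InfinitePlace.nrRealPlaces K + 2 * InfinitePlace.nrComplexPlaces K = 3 at h3
  rw [Units.rank, InfinitePlace.card_eq_nrRealPlaces_add_nrComplexPlaces]
  rw [nrComplex] at h3 ⊢
  omega

theorem neg_η_not_square : ∀ c : ℤ × ℤ × ℤ, mul3 c c ≠ (1, -1, 0) := by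
  intro c h
  have key : ∀ a b e : ZMod 7, (a + 5 * b + 4 * e) ^ 2 ≠ 3 := by decide
  apply key (c.1 : ZMod 7) (c.2.1 : ZMod 7) (c.2.2 : ZMod 7)
  simp only [mul3, Prod.ext_iff] at h
  have g0 := congrArg (fun n : ℤ => (n : ZMod 7)) h.1
  have g1 := congrArg (fun n : ℤ => (n : ZMod 7)) h.2.1
  have g2 := congrArg (fun n : ℤ => (n : ZMod 7)) h.2.2
  push_cast at g0 g1 g2
  have seven : (7 : ZMod 7) = 0 := by decide
  linear_combination g0 + 5 * g1 + 4 * g2 + (3 * (c.2.1 : ZMod 7) ^ 2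
    + 4 * (c.2.1 : ZMod 7) * (c.2.2 : ZMod 7) + 2 * (c.2.2 : ZMod 7) ^ 2 - 1) * seven

/-- The unit `1 - θ = -η`. -/
def nη : 𝓞 K := el (1, -1, 0)

theorem nm_nη : nm nη = 1 := by rw [nη, nm_el, N3_eq]; norm_num

theorem isUnit_nη : IsUnit nη := isUnit_of_nm (by rw [nm_nη]; exact isUnit_one)

theorem nm_neg_one : nm (-1 : 𝓞 K) = -1 := by
  have : (-1 : 𝓞 K) = el (-1, 0, 0) :=
      RingOfIntegers.ext (by rw [show (el (-1, 0, 0) : K) = elQ _ from rfl]; simp [elQ])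
  rw [this, nm_el, N3_eq]; norm_num

/-- Units of norm one are squares or `(1 - θ)` times squares. -/
theorem unit_norm_one {x : (𝓞 K)ˣ} (hx : nm (x : 𝓞 K) = 1) :
    ∃ w : 𝓞 K, (x : 𝓞 K) = w ^ 2 ∨ (x : 𝓞 K) = nη * w ^ 2 := by
  set g : (𝓞 K)ˣ := Units.fundSystem K ⟨0, by rw [rank_K]; exact one_pos⟩
  have odd3 : Odd (Module.finrank ℚ K) := by rw [finrank_K]; exact ⟨1, rfl⟩
  have form : ∀ y : (𝓞 K)ˣ, ∃ (s : (𝓞 K)ˣ) (k : ℤ), (s = 1 ∨ s = -1) ∧ y = s * g ^ k := by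
    intro y
    obtain ⟨⟨ζ, e⟩, he, -⟩ := Units.exist_unique_eq_mul_prod K y
    have he' : y = ζ * ∏ i, Units.fundSystem K i ^ e i := he
    have : Subsingleton (Fin (Units.rank K)) := by rw [rank_K]; infer_instance
    rw [Fintype.prod_subsingleton _ ⟨0, by rw [rank_K]; exact one_pos⟩] at he'
    exact ⟨_, _, Units.torsion_eq_one_or_neg_one_of_odd_finrank odd3 ζ, he'⟩
  have sqnm : ∀ w : (𝓞 K)ˣ, nm ((w : 𝓞 K) ^ 2) = 1 := by
    intro w
    have : IsUnit (nm (w : 𝓞 K)) := w.isUnit.map nm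
    rw [map_pow]; exact Int.units_sq this.unit |> congrArg Units.val
  obtain ⟨u, hu⟩ := isUnit_nη
  obtain ⟨su, ku, hsu, hku⟩ := form u
  obtain ⟨sx, kx, hsx, hkx⟩ := form x
  rcases Int.even_or_odd ku with ⟨m, rfl⟩ | ⟨m, rfl⟩
  · exfalso
    have e : (u : 𝓞 K) = (su : 𝓞 K) * ((g ^ m : (𝓞 K)ˣ) : 𝓞 K) ^ 2 := by
      rw [hku, ← Units.val_pow_eq_pow_val, ← Units.val_mul, ← zpow_natCast, ← zpow_mul]
      congr 2; ring
    rcases hsu with rfl | rfl
    · rw [Units.val_one, one_mul] at e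
      refine neg_η_not_square (co ((g ^ m : (𝓞 K)ˣ) : 𝓞 K)) (el_injective ?_)
      rw [el_mul, el_co, ← pow_two, ← e, hu]; rfl
    · have := congrArg nm e
      rw [hu, nm_nη, map_mul, sqnm, Units.val_neg, Units.val_one, nm_neg_one] at this
      norm_num at this
  rcases Int.even_or_odd kx with ⟨n, rfl⟩ | ⟨n, rfl⟩
  · refine ⟨((g ^ n : (𝓞 K)ˣ) : 𝓞 K), Or.inl ?_⟩
    have e : (x : 𝓞 K) = (sx : 𝓞 K) * ((g ^ n : (𝓞 K)ˣ) : 𝓞 K) ^ 2 := by
      rw [hkx, ← Units.val_pow_eq_pow_val, ← Units.val_mul, ← zpow_natCast, ← zpow_mul]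
      congr 2; ring
    rcases hsx with rfl | rfl
    · simpa using e
    · have := congrArg nm e
      rw [hx, map_mul, sqnm, Units.val_neg, Units.val_one, nm_neg_one] at this
      norm_num at this
  · refine ⟨((g ^ (n - m) : (𝓞 K)ˣ) : 𝓞 K), Or.inr ?_⟩
    have ss : (su * su : (𝓞 K)ˣ) = 1 := by rcases hsu with rfl | rfl <;> simp
    have e : x = (sx * su) * u * (g ^ (n - m)) ^ 2 := by
      rw [hkx, hku, ← zpow_natCast, ← zpow_mul]
      rw [mul_assoc (sx * su), mul_assoc su, ← zpow_add, mul_assoc sx, ← mul_assoc su su, ss,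
        one_mul]
      congr 2; push_cast; ring
    have e' : (x : 𝓞 K) = ((sx * su : (𝓞 K)ˣ) : 𝓞 K) * nη * ((g ^ (n - m) : (𝓞 K)ˣ) : 𝓞 K) ^ 2 := by
      rw [← hu, ← Units.val_pow_eq_pow_val, ← Units.val_mul, ← Units.val_mul, ← e]
    have : (sx * su : (𝓞 K)ˣ) = 1 := by
      have := congrArg nm e'
      rw [hx, map_mul, map_mul, sqnm, nm_nη] at this
      rcases hsx with rfl | rfl <;> rcases hsu with rfl | rfl <;>
        simp [nm_neg_one] at this ⊢
    rw [this, Units.val_one, one_mul] at e'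
    exact e'

end Fermat.Agent.Eleven
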