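import Fermat.Agent.Eleven.Cubic

/-!
The only rational points of `y ^ 2 - y = x ^ 3 - x ^ 2` (the curve `X₁(11)`) have `x = 0` or `x = 1`.
The proof is a 2-descent over the cubic field of discriminant `-44` with an explicit halving.
-/

noncomputable section

namespace Fermat.Agent.Eleven

open NumberField

/-- The prime above `11`. -/
def π₁ : 𝓞 K := el (3, -4, 2)

theorem nm_π₁ : nm π₁ = 11 := by rw [π₁, nm_el, N3_eq]; norm_num

theorem prime_π₁ : Prime π₁ := by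
  refine Irreducible.prime ⟨fun h => ?_, fun a b hab => ?_⟩
  · have := h.map nm; rw [nm_π₁] at this; revert this; decide
  · have h := congrArg nm hab
    rw [nm_π₁, map_mul] at h
    have hn : (nm a).natAbs * (nm b).natAbs = 11 := by rw [← Int.natAbs_mul, ← h]; rfl
    rcases (Nat.dvd_prime (by norm_num)).1 ⟨_, hn.symm⟩ with h1 | h1
    · exact Or.inl (isUnit_of_nm (Int.isUnit_iff_natAbs_eq.2 h1))
    · refine Or.inr (isUnit_of_nm (Int.isUnit_iff_natAbs_eq.2 ?_))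
      rw [h1] at hn; omega

/-- If `x * y` is a square, `nm x` is a nonzero square and the common prime divisors of `x, y`
are associated to `π₁`, then `x` is a square or `(1 - θ)` times a square. -/
theorem square_of_mul_eq_sq {x y z : 𝓞 K} {W : ℤ} (h : x * y = z ^ 2) (hW : W ≠ 0)
    (hx : nm x = W ^ 2) (hp : ∀ p : 𝓞 K, Prime p → p ∣ x → p ∣ y → p ∣ π₁) :
    ∃ g : 𝓞 K, x = g ^ 2 ∨ x = nη * g ^ 2 := by
  classical
  have hx0 : x ≠ 0 := by
    rintro rfl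
    have : nm (0 : 𝓞 K) = 0 := by
      have e : (0 : 𝓞 K) = el (0, 0, 0) :=
        RingOfIntegers.ext (by rw [show (el (0, 0, 0) : K) = elQ _ from rfl]; simp [elQ])
      rw [e, nm_el, N3_eq]; norm_num
    rw [this] at hx; exact pow_ne_zero 2 hW hx.symm
  obtain ⟨n, x0, hx0', hxe⟩ := WfDvdMonoid.max_power_factor hx0 prime_π₁.irreducible
  have hco : IsCoprime x0 (y * π₁ ^ n) := by
    refine isCoprime_of_prime_dvd (fun h0 => hx0 (by rw [hxe, h0.1, mul_zero])) fun p pp h1 h2 => ?_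
    have hπ : p ∣ π₁ := by
      rcases pp.dvd_or_dvd h2 with h3 | h3
      · exact hp p pp (hxe ▸ h1.mul_left _) h3
      · exact pp.dvd_of_dvd_pow h3
    exact hx0' (((pp.associated_of_dvd prime_π₁ hπ).symm.dvd).trans h1)
  let : GCDMonoid (𝓞 K) := UniqueFactorizationMonoid.toGCDMonoid _
  obtain ⟨d, hd⟩ := exists_associated_pow_of_mul_eq_pow
    (a := x0) (b := y * π₁ ^ n) (c := z) (k := 2)
    ((gcd_isUnit_iff _ _).2 hco)
    (by rw [← h, hxe]; ring)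
  obtain ⟨u, hu⟩ := hd
  have hu1 : IsUnit (nm (u : 𝓞 K)) := u.isUnit.map nm
  have e : W ^ 2 = 11 ^ n * (nm d ^ 2 * nm (u : 𝓞 K)) := by
    rw [← hx, hxe, ← hu, map_mul, map_mul, map_pow, map_pow, nm_π₁]
  -- the parity of the exponent of `11`
  rcases Nat.even_or_odd n with ⟨m, rfl⟩ | ⟨m, rfl⟩
  swap
  · exfalso
    have e2 : W.natAbs ^ 2 = 11 * (11 ^ m * (nm d).natAbs) ^ 2 := by
      have := congrArg Int.natAbs e
      rw [Int.natAbs_mul, Int.natAbs_mul, Int.natAbs_pow, Int.natAbs_pow, Int.natAbs_pow,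
        Int.isUnit_iff_natAbs_eq.1 hu1] at this
      rw [this]; norm_num; ring
    set B := 11 ^ m * (nm d).natAbs
    have hB : B ≠ 0 := fun hB => hW (by simpa [hB] using e2)
    have hA : W.natAbs ≠ 0 := by simpa using hW
    have h11 : (11 : ℕ).factorization 11 = 1 := (Nat.prime_def.2 ⟨by norm_num,
      fun d hd => (Nat.dvd_prime (by norm_num)).1 hd⟩).factorization_self
    have := congrArg (fun k : ℕ => k.factorization 11) e2
    simp only [Nat.factorization_pow, Nat.factorization_mul (by norm_num : (11 : ℕ) ≠ 0)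
      (pow_ne_zero 2 hB), Finsupp.smul_apply, Finsupp.add_apply, smul_eq_mul, h11] at this
    omega
  have hu' : nm (u : 𝓞 K) = 1 := by
    rcases Int.isUnit_iff.1 hu1 with h1 | h1
    · exact h1
    · exfalso
      have h2 : 0 < W ^ 2 := by positivity
      rw [e, h1] at h2
      have : (0 : ℤ) ≤ 11 ^ (m + m) * nm d ^ 2 := by positivity
      linarith
  obtain ⟨w, hw | hw⟩ := unit_norm_one hu'
  · exact ⟨π₁ ^ m * d * w, Or.inl (by rw [hxe, ← hu, hw]; ring)⟩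
  · exact ⟨π₁ ^ m * d * w, Or.inr (by rw [hxe, ← hu, hw]; ring)⟩

/-! ### Elements from integers and `θ` -/

/-- The root, as an algebraic integer. -/
def θ : 𝓞 K := el (0, 1, 0)

theorem el_eq (c : ℤ × ℤ × ℤ) : el c = (c.1 : 𝓞 K) + (c.2.1 : 𝓞 K) * θ + (c.2.2 : 𝓞 K) * θ ^ 2 := by
  apply RingOfIntegers.ext
  have hθ : (θ : K) = φ := by
    rw [show (θ : K) = elQ _ from rfl]; simp [elQ]
  simp only [map_add, map_mul, map_intCast, map_pow, hθ]
  rw [show (el c : K) = elQ _ from rfl]; simp [elQ]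

theorem θ_eq : θ ^ 3 = 2 * θ ^ 2 - 2 := by
  have h : el (mul3 (mul3 (0, 1, 0) (0, 1, 0)) (0, 1, 0)) = θ ^ 3 := by
    rw [el_mul, el_mul, θ]; ring
  rw [← h, el_eq]; simp [mul3]; ring

theorem dvd_one_false {p : 𝓞 K} (hp : Prime p) {m n : ℤ} (hc : IsCoprime m n)
    (hm : p ∣ (m : 𝓞 K)) (hn : p ∣ (n : 𝓞 K)) : False := by
  obtain ⟨r, s, hrs⟩ := hc
  apply hp.not_isUnit
  apply isUnit_of_dvd_one
  have : (1 : 𝓞 K) = (r : 𝓞 K) * m + (s : 𝓞 K) * n := by exact_mod_cast hrs.symm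
  rw [this]; exact dvd_add (hm.mul_left _) (hn.mul_left _)

/-! ### Mod 4 -/

/-- The coordinates of `(1 - θ) * c` are these, for `c` a square. -/
theorem obstruction_even : ∀ c0 c1 c2 e : ZMod 4,
    (mul3 (1, -1, 0) (mul3 (c0, c1, c2) (c0, c1, c2))).2.2 = 0 →
    (mul3 (1, -1, 0) (mul3 (c0, c1, c2) (c0, c1, c2))).2.1 = -2 * e ^ 2 →
    2 * (mul3 (1, -1, 0) (mul3 (c0, c1, c2) (c0, c1, c2))).1 ≠ 2 := by
  unfold mul3; decide

theorem obstruction_odd : ∀ c0 c1 c2 : ZMod 4,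
    (mul3 (1, -1, 0) (mul3 (c0, c1, c2) (c0, c1, c2))).2.1
      = -2 * (mul3 (1, -1, 0) (mul3 (c0, c1, c2) (c0, c1, c2))).2.2 →
    (mul3 (1, -1, 0) (mul3 (c0, c1, c2) (c0, c1, c2))).1 ≠ 1 := by
  unfold mul3; decide

/-- Reduction mod 4 of coordinates. -/
def red (c : ℤ × ℤ × ℤ) : ZMod 4 × ZMod 4 × ZMod 4 := (c.1, c.2.1, c.2.2)

theorem red_mul3 (a b : ℤ × ℤ × ℤ) : red (mul3 a b) = mul3 (red a) (red b) := by
  simp only [red, mul3]; push_cast; rfl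

/-! ### The case of an even denominator -/

theorem exists_sq_even {a e w : ℤ} (hc : IsCoprime a (2 * e))
    (hw : w ^ 2 = a ^ 3 - 4 * a ^ 2 * e ^ 2 + 16 * e ^ 6) :
    ∃ c : ℤ × ℤ × ℤ, mul3 c c = (a, -2 * e ^ 2, 0) := by
  set ψ : 𝓞 K := 2 * (e : 𝓞 K) ^ 2
  set x : 𝓞 K := (a : 𝓞 K) - ψ * θ with hxdef
  set y : 𝓞 K := (a : 𝓞 K) ^ 2 + (θ - 2) * a * ψ + (θ ^ 2 - 2 * θ) * ψ ^ 2 with hydef
  have hx : x = el (a, -2 * e ^ 2, 0) := by rw [el_eq, hxdef]; push_cast; ring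
  have hc2 : IsCoprime a 2 := (IsCoprime.mul_right_iff.1 hc).1
  have hce : IsCoprime a e := (IsCoprime.mul_right_iff.1 hc).2
  have hw0 : w ≠ 0 := by
    rintro rfl
    have : (2 : ℤ) ∣ a ^ 3 := ⟨2 * a ^ 2 * e ^ 2 - 8 * e ^ 6, by linarith⟩
    have := Int.prime_two.dvd_of_dvd_pow this
    exact absurd ((hc2.isUnit_of_dvd' this dvd_rfl)) (by decide)
  have hw' : (w : 𝓞 K) ^ 2 = a ^ 3 - 4 * a ^ 2 * e ^ 2 + 16 * e ^ 6 := by exact_mod_cast hw
  have hxy : x * y = (w : 𝓞 K) ^ 2 := by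
    rw [hw', hxdef, hydef]
    linear_combination (-ψ ^ 3) * θ_eq
  obtain ⟨g, hg | hg⟩ := square_of_mul_eq_sq (x := x) (y := y) (W := w) hxy hw0
      (by rw [hx, nm_el, N3_eq, hw]; ring) (fun p pp h1 h2 => by
    have key : p ∣ ψ ^ 2 * θ ^ 2 * π₁ := by
      have e1 : ψ ^ 2 * θ ^ 2 * π₁
          = y - x * ((a : 𝓞 K) + ψ * θ + (θ - 2) * ψ) := by
        rw [hxdef, hydef, π₁, el_eq]; push_cast
        linear_combination (ψ ^ 2 * (2 * θ)) * θ_eq
      rw [e1]; exact dvd_sub h2 (h1.mul_right _)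
    have hθ2 : p ∣ θ → p ∣ ((2 : ℤ) : 𝓞 K) := fun hθ => by
      have : ((2 : ℤ) : 𝓞 K) = θ * (θ * (2 - θ)) := by push_cast; linear_combination θ_eq
      rw [this]; exact hθ.mul_right _
    have ha : ∀ q : 𝓞 K, q = ψ ∨ q = θ → p ∣ q → p ∣ (a : 𝓞 K) := by
      intro q hq hpq
      have : (a : 𝓞 K) = x + ψ * θ := by rw [hxdef]; ring
      rw [this]
      rcases hq with rfl | rfl
      · exact dvd_add h1 (hpq.mul_right _)
      · exact dvd_add h1 (hpq.mul_left _)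
    rcases pp.dvd_or_dvd key with h3 | h3
    · exfalso
      rcases pp.dvd_or_dvd h3 with h4 | h4
      · have h5 : p ∣ (2 : 𝓞 K) * (e : 𝓞 K) ^ 2 := pp.dvd_of_dvd_pow h4
        rcases pp.dvd_or_dvd h5 with h6 | h6
        · exact dvd_one_false pp hc2 (ha ψ (Or.inl rfl) h5) (by exact_mod_cast h6)
        · exact dvd_one_false pp hce (ha ψ (Or.inl rfl) h5) (pp.dvd_of_dvd_pow h6)
      · have h5 := pp.dvd_of_dvd_pow h4
        exact dvd_one_false pp hc2 (ha θ (Or.inr rfl) h5) (hθ2 h5)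
    · exact h3)
  · refine ⟨co g, el_injective ?_⟩
    rw [el_mul, el_co, ← pow_two, ← hg, hx]
  · exfalso
    have h : mul3 (1, -1, 0) (mul3 (co g) (co g)) = (a, -2 * e ^ 2, 0) := el_injective (by
      rw [el_mul, el_mul, el_co, ← pow_two, ← hx, hg]; rfl)
    have h4 := congrArg red h
    rw [red_mul3, red_mul3] at h4
    have e1 : red (1, -1, 0) = (1, -1, 0) := by simp [red]
    rw [e1] at h4
    refine obstruction_even (red (co g)).1 (red (co g)).2.1 (red (co g)).2.2 (e : ZMod 4) ?_ ?_ ?_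
    · rw [h4]; simp [red]
    · rw [h4]; simp [red]
    · rw [h4]
      show (2 : ZMod 4) * (a : ZMod 4) = 2
      obtain ⟨k, rfl⟩ : Odd a := by
        rw [← Int.not_even_iff_odd]
        intro hev
        exact absurd (hc2.isUnit_of_dvd' hev.two_dvd dvd_rfl) (by decide)
      have four : (4 : ZMod 4) = 0 := by decide
      push_cast; linear_combination (k : ZMod 4) * four

theorem even_case : ∀ (N : ℕ) (a e w : ℤ), e.natAbs = N → IsCoprime a (2 * e) →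
    w ^ 2 = a ^ 3 - 4 * a ^ 2 * e ^ 2 + 16 * e ^ 6 → e = 0 := by
  intro N
  induction N using Nat.strong_induction_on with
  | _ N ih =>
  intro a e w hN hc hw
  by_contra he
  obtain ⟨⟨c0, c1, c2⟩, h⟩ := exists_sq_even hc hw
  simp only [mul3, Prod.ext_iff] at h
  obtain ⟨h0, h1, h2⟩ := h
  have hc2 : IsCoprime a 2 := (IsCoprime.mul_right_iff.1 hc).1
  have hce : IsCoprime a e := (IsCoprime.mul_right_iff.1 hc).2
  obtain ⟨k, rfl⟩ : 2 ∣ c1 := by
    apply Int.prime_two.dvd_of_dvd_pow (n := 2)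
    exact ⟨-(c0 * c2 + 2 * c1 * c2 + 2 * c2 ^ 2), by linear_combination h2⟩
  have hk : c0 * c2 = -2 * (k + c2) ^ 2 := by linarith
  have a2 : ¬ (2 : ℤ) ∣ a := fun h => absurd (hc2.isUnit_of_dvd' h dvd_rfl) (by decide)
  have c0odd : ¬ (2 : ℤ) ∣ c0 := fun ⟨j, hj⟩ => a2 ⟨2 * j ^ 2 - 4 * k * c2 - 2 * c2 ^ 2, by
    rw [← h0, hj]; ring⟩
  have cop : IsCoprime c0 c2 := by
    refine isCoprime_of_prime_dvd (fun hz => c0odd (hz.1 ▸ dvd_zero 2)) fun p pp p0 p2 => ?_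
    have pa : p ∣ a := by
      rw [← h0]
      exact ((p0.mul_right _).sub ((((p2.mul_left _).add (p2.mul_right _)).mul_left _))).sub
        ((p2.mul_left _).mul_left _)
    have pk : p ∣ k + c2 := by
      rcases pp.dvd_or_dvd (show p ∣ (-2) * (k + c2) ^ 2 from hk ▸ p0.mul_right c2) with q | q
      · exact absurd (hc2.isUnit_of_dvd' pa (dvd_neg.1 q)) pp.not_isUnit
      · exact pp.dvd_of_dvd_pow q
    have pk' : p ∣ k := by simpa using pk.sub p2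
    have pe : p ∣ 2 * e ^ 2 := by
      obtain ⟨u, rfl⟩ := p0; obtain ⟨v, rfl⟩ := p2; obtain ⟨r, rfl⟩ := pk'
      exact ⟨-(4 * p * u * r - 2 * p * v ^ 2), by linear_combination h1⟩
    rcases pp.dvd_or_dvd pe with q | q
    · exact pp.not_isUnit (hc2.isUnit_of_dvd' pa q)
    · exact pp.not_isUnit (hce.isUnit_of_dvd' pa (pp.dvd_of_dvd_pow q))
  obtain ⟨c2', hc2'⟩ : 2 ∣ c2 :=
    (Int.prime_two.dvd_or_dvd (show (2 : ℤ) ∣ c0 * c2 from ⟨-(k + c2) ^ 2, by linarith⟩)).resolve_left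
      c0odd
  have cop' : IsCoprime c0 (-c2') := (cop.of_isCoprime_of_dvd_right ⟨2, by rw [hc2']; ring⟩).neg_right
  have hprod : c0 * (-c2') = (k + c2) ^ 2 := by rw [hc2'] at hk ⊢; linarith
  obtain ⟨σ, m, hσ, hm⟩ : ∃ σ m : ℤ, (σ = 1 ∨ σ = -1) ∧ c0 = σ * m ^ 2 := by
    obtain ⟨m, hm | hm⟩ := Int.sq_of_isCoprime cop' hprod
    · exact ⟨1, m, Or.inl rfl, by rw [hm]; ring⟩
    · exact ⟨-1, m, Or.inr rfl, by rw [hm]; ring⟩
  have hm0 : m ≠ 0 := by
    rintro rfl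
    exact c0odd ⟨0, by rw [hm]; ring⟩
  obtain ⟨n, hn⟩ : m ∣ k + c2 := by
    rw [← Int.pow_dvd_pow_iff two_ne_zero]
    exact ⟨σ * (-c2'), by rw [← hprod, hm]; ring⟩
  have hc2'' : c2 = -2 * σ * n ^ 2 := by
    have : σ * m ^ 2 * (-c2') = m ^ 2 * n ^ 2 := by rw [← hm, hprod, hn]; ring
    have hm2 : m ^ 2 ≠ 0 := pow_ne_zero 2 hm0
    rcases hσ with rfl | rfl
    · have := mul_left_cancel₀ hm2 (show m ^ 2 * (-c2') = m ^ 2 * n ^ 2 by linarith)
      linarith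
    · have := mul_left_cancel₀ hm2 (show m ^ 2 * c2' = m ^ 2 * n ^ 2 by linarith)
      linarith
  have hk' : k = m * n + 2 * σ * n ^ 2 := by linarith
  obtain ⟨M, hM⟩ : ∃ M, M = σ * m := ⟨_, rfl⟩
  have hee : e ^ 2 = 2 * n * (2 * n ^ 3 - 2 * M ^ 2 * n - M ^ 3) := by
    have : 2 * e ^ 2 = 2 * c2 ^ 2 - 4 * c0 * k := by linarith
    rw [hc2'', hk', hm] at this
    rw [hM]
    rcases hσ with rfl | rfl <;> linarith
  have hMc0 : c0 = σ * M ^ 2 := by
    rw [hm, hM]; rcases hσ with rfl | rfl <;> ring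
  have M2 : ¬ (2 : ℤ) ∣ M := fun ⟨j, hj⟩ => c0odd ⟨σ * 2 * j ^ 2, by rw [hMc0, hj]; ring⟩
  have copMn : IsCoprime M n :=
    (cop.of_isCoprime_of_dvd_left ⟨σ * M, by rw [hMc0]; ring⟩).of_isCoprime_of_dvd_right
      ⟨-2 * σ * n, by rw [hc2'']; ring⟩
  have c2M : IsCoprime (2 : ℤ) M := (Int.prime_two.coprime_iff_not_dvd).2 M2
  set I := 2 * n ^ 3 - 2 * M ^ 2 * n - M ^ 3 with hI
  have copI : IsCoprime (2 * n) I := by
    have : IsCoprime (2 * n) (-(M ^ 3)) := ((c2M.mul_left copMn.symm).pow_right).neg_right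
    have := this.add_mul_left_right (n ^ 2 - M ^ 2)
    rwa [show -(M ^ 3) + 2 * n * (n ^ 2 - M ^ 2) = I by rw [hI]; ring] at this
  obtain ⟨τ, r, hτ, hr⟩ : ∃ τ r : ℤ, (τ = 1 ∨ τ = -1) ∧ 2 * n = τ * r ^ 2 := by
    obtain ⟨r, hr | hr⟩ := Int.sq_of_isCoprime copI hee.symm
    · exact ⟨1, r, Or.inl rfl, by rw [hr]; ring⟩
    · exact ⟨-1, r, Or.inr rfl, by rw [hr]; ring⟩
  obtain ⟨s, hs⟩ : (2 : ℤ) ∣ r := by
    apply Int.prime_two.dvd_of_dvd_pow (n := 2)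
    rcases hτ with rfl | rfl
    · exact ⟨n, by linarith⟩
    · exact ⟨-n, by linarith⟩
  have hn' : n = 2 * τ * s ^ 2 := by
    rw [hs] at hr; linarith
  have hs0 : s ≠ 0 := by
    rintro rfl
    rw [hn'] at hee
    exact he (pow_eq_zero_iff two_ne_zero |>.1 (by rw [hee]; ring))
  obtain ⟨t, ht⟩ : r ∣ e := by
    rw [← Int.pow_dvd_pow_iff two_ne_zero]
    exact ⟨τ * I, by rw [hee, hr]; ring⟩
  have hr0 : r ≠ 0 := by rw [hs]; simpa using hs0
  have hIt : τ * I = t ^ 2 := by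
    refine mul_left_cancel₀ (pow_ne_zero 2 hr0) ?_
    calc r ^ 2 * (τ * I) = e ^ 2 := by rw [hee, hr]; ring
      _ = r ^ 2 * t ^ 2 := by rw [ht]; ring
  have ht0 : t ≠ 0 := by rintro rfl; exact he (by rw [ht]; ring)
  have hw' : t ^ 2 = (-τ * M) ^ 3 - 4 * (-τ * M) ^ 2 * s ^ 2 + 16 * s ^ 6 := by
    rw [← hIt, hI, hn']
    rcases hτ with rfl | rfl <;> ring
  have hc' : IsCoprime (-τ * M) (2 * s) := by
    have h1 : IsCoprime M (2 * s) := c2M.symm.mul_right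
      (copMn.of_isCoprime_of_dvd_right ⟨2 * τ * s, by rw [hn']; ring⟩)
    rcases hτ with rfl | rfl
    · simpa using h1.neg_left
    · simpa using h1
  have hlt : s.natAbs < N := by
    rw [← hN, ht, hs, Int.natAbs_mul, Int.natAbs_mul]
    have h1 : 0 < s.natAbs := Int.natAbs_pos.2 hs0
    have h2 : 0 < t.natAbs := Int.natAbs_pos.2 ht0
    have h3 : (2 : ℤ).natAbs = 2 := rfl
    rw [h3]; nlinarith
  exact hs0 (ih _ hlt _ _ _ rfl hc' hw')

/-! ### The case of an odd denominator -/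

theorem exists_sq_odd {a d w : ℤ} (hc : IsCoprime a d) (hd : ¬ (2 : ℤ) ∣ d)
    (hw : w ^ 2 = 4 * a ^ 3 - 4 * a ^ 2 * d ^ 2 + d ^ 6) :
    ∃ c : ℤ × ℤ × ℤ, mul3 c c = (d ^ 2, -2 * a, a) := by
  set x : 𝓞 K := (d : 𝓞 K) ^ 2 + a * (θ ^ 2 - 2 * θ) with hxdef
  set y : 𝓞 K := (d : 𝓞 K) ^ 4 - a * (d : 𝓞 K) ^ 2 * (θ ^ 2 - 2 * θ) - 2 * θ * (a : 𝓞 K) ^ 2
    with hydef
  have hx : x = el (d ^ 2, -2 * a, a) := by rw [el_eq, hxdef]; push_cast; ring
  have hcd : IsCoprime (2 : ℤ) d := (Int.prime_two.coprime_iff_not_dvd).2 hd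
  have hw0 : w ≠ 0 := by
    rintro rfl
    exact hd (Int.prime_two.dvd_of_dvd_pow (n := 6) ⟨2 * a ^ 2 * d ^ 2 - 2 * a ^ 3, by linarith⟩)
  have hw' : (w : 𝓞 K) ^ 2 = 4 * a ^ 3 - 4 * a ^ 2 * d ^ 2 + d ^ 6 := by exact_mod_cast hw
  have hxy : x * y = (w : 𝓞 K) ^ 2 := by
    rw [hw', hxdef, hydef]
    linear_combination (-(a : 𝓞 K) ^ 2 * (d : 𝓞 K) ^ 2 * (θ - 2) - 2 * (a : 𝓞 K) ^ 3) * θ_eq
  obtain ⟨g, hg | hg⟩ := square_of_mul_eq_sq (x := x) (y := y) (W := w) hxy hw0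
      (by rw [hx, nm_el, N3_eq, hw]; ring) (fun p pp h1 h2 => by
    have key : p ∣ (2 * (a : 𝓞 K) ^ 2 * θ) * π₁ := by
      have e1 : (2 * (a : 𝓞 K) ^ 2 * θ) * π₁
          = x * ((d : 𝓞 K) ^ 2 - 2 * a * (θ ^ 2 - 2 * θ)) - y := by
        rw [hxdef, hydef, π₁, el_eq]; push_cast
        linear_combination (2 * (a : 𝓞 K) ^ 2 * θ) * θ_eq
      rw [e1]; exact dvd_sub (h1.mul_right _) h2
    rcases pp.dvd_or_dvd key with h3 | h3
    · exfalso
      have hθd : p ∣ θ → False := fun hθ => by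
        have hd2 : p ∣ (d : 𝓞 K) ^ 2 := by
          rw [show (d : 𝓞 K) ^ 2 = x - θ * (a * (θ - 2)) by rw [hxdef]; ring]
          exact dvd_sub h1 (hθ.mul_right _)
        refine dvd_one_false pp hcd ?_ (pp.dvd_of_dvd_pow hd2)
        rw [show ((2 : ℤ) : 𝓞 K) = θ * (θ * (2 - θ)) by push_cast; linear_combination θ_eq]
        exact hθ.mul_right _
      rcases pp.dvd_or_dvd h3 with h4 | h4
      · rcases pp.dvd_or_dvd h4 with h5 | h5
        · rcases pp.dvd_or_dvd (show p ∣ θ * (θ * (2 - θ)) by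
            rw [show θ * (θ * (2 - θ)) = (2 : 𝓞 K) by linear_combination -θ_eq]; exact h5)
            with h6 | h6
          · exact hθd h6
          · rcases pp.dvd_or_dvd h6 with h7 | h7
            · exact hθd h7
            · refine hθd ?_
              have := dvd_sub h5 h7
              rwa [show (2 : 𝓞 K) - (2 - θ) = θ by ring] at this
        · have h6 := pp.dvd_of_dvd_pow h5
          refine dvd_one_false pp hc h6 (pp.dvd_of_dvd_pow (n := 2) ?_)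
          rw [show (d : 𝓞 K) ^ 2 = x - a * (θ ^ 2 - 2 * θ) by rw [hxdef]; ring]
          exact dvd_sub h1 (h6.mul_right _)
      · exact hθd h4
    · exact h3)
  · refine ⟨co g, el_injective ?_⟩
    rw [el_mul, el_co, ← pow_two, ← hg, hx]
  · exfalso
    have h : mul3 (1, -1, 0) (mul3 (co g) (co g)) = (d ^ 2, -2 * a, a) := el_injective (by
      rw [el_mul, el_mul, el_co, ← pow_two, ← hx, hg]; rfl)
    have h4 := congrArg red h
    rw [red_mul3, red_mul3] at h4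
    have e1 : red (1, -1, 0) = (1, -1, 0) := by simp [red]
    rw [e1] at h4
    refine obstruction_odd (red (co g)).1 (red (co g)).2.1 (red (co g)).2.2 ?_ ?_
    · rw [h4]; simp [red]
    · rw [h4]
      show ((d ^ 2 : ℤ) : ZMod 4) = 1
      obtain ⟨k, rfl⟩ : Odd d := by
        rw [← Int.not_even_iff_odd]
        exact fun hev => hd hev.two_dvd
      have four : (4 : ZMod 4) = 0 := by decide
      push_cast; linear_combination ((k : ZMod 4) ^ 2 + k) * four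

theorem abs_cube_le {t r M : ℤ} (ht : |t| ≤ M) (hr : |r| ≤ M) :
    |t ^ 3| ≤ M ^ 3 ∧ |r ^ 3| ≤ M ^ 3 ∧ |t ^ 2 * r| ≤ M ^ 3 ∧ |t * r ^ 2| ≤ M ^ 3 := by
  have hM : 0 ≤ M := (abs_nonneg t).trans ht
  have A : ∀ x y z : ℤ, |x| ≤ M → |y| ≤ M → |z| ≤ M → |x * y * z| ≤ M ^ 3 := by
    intro x y z hx hy hz
    rw [abs_mul, abs_mul, show M ^ 3 = M * M * M by ring]
    exact mul_le_mul (mul_le_mul hx hy (abs_nonneg _) hM) hz (abs_nonneg _) (mul_nonneg hM hM)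
  refine ⟨?_, ?_, ?_, ?_⟩
  · rw [show t ^ 3 = t * t * t by ring]; exact A _ _ _ ht ht ht
  · rw [show r ^ 3 = r * r * r by ring]; exact A _ _ _ hr hr hr
  · rw [show t ^ 2 * r = t * t * r by ring]; exact A _ _ _ ht ht hr
  · rw [show t * r ^ 2 = t * r * r by ring]; exact A _ _ _ ht hr hr

theorem height_bound {t r M H : ℤ} (ht : |t| ≤ M) (hr : |r| ≤ M) (hM : M = |t| ∨ M = |r|)
    (hA : |r ^ 4 + 2 * r * t ^ 3 - 2 * r ^ 3 * t| ≤ H)
    (hD : |t ^ 4 + 2 * r ^ 2 * t ^ 2 - 4 * r ^ 3 * t + r ^ 4| ≤ H) :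
    11 * M ^ 7 ≤ 71 * (M ^ 3 * H) := by
  obtain ⟨b1, b2, b3, b4⟩ := abs_cube_le ht hr
  set A := r ^ 4 + 2 * r * t ^ 3 - 2 * r ^ 3 * t with hAd
  set D := t ^ 4 + 2 * r ^ 2 * t ^ 2 - 4 * r ^ 3 * t + r ^ 4 with hDd
  have key : ∀ x ∈ ([t ^ 3, r ^ 3, t ^ 2 * r, t * r ^ 2] : List ℤ), ∀ y ∈ ([A, D] : List ℤ),
      |x * y| ≤ M ^ 3 * H := by
    intro x hx y hy
    rw [abs_mul]
    refine mul_le_mul ?_ ?_ (abs_nonneg _) ((abs_nonneg _).trans b1)
    · fin_cases hx <;> assumption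
    · fin_cases hy <;> assumption
  have h := fun x hx y hy => abs_le.1 (key x hx y hy)
  obtain ⟨l1, u1⟩ := h (t ^ 3) (by simp) A (by simp)
  obtain ⟨l2, u2⟩ := h (r ^ 3) (by simp) A (by simp)
  obtain ⟨l3, u3⟩ := h (t ^ 2 * r) (by simp) A (by simp)
  obtain ⟨l4, u4⟩ := h (t * r ^ 2) (by simp) A (by simp)
  obtain ⟨l5, u5⟩ := h (t ^ 3) (by simp) D (by simp)
  obtain ⟨l6, u6⟩ := h (r ^ 3) (by simp) D (by simp)
  obtain ⟨l7, u7⟩ := h (t ^ 2 * r) (by simp) D (by simp)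
  obtain ⟨l8, u8⟩ := h (t * r ^ 2) (by simp) D (by simp)
  have e0 : 11 * r ^ 7 = 27 * (r ^ 3 * A) - 10 * (t * r ^ 2 * A) - 6 * (t ^ 3 * A)
      - 16 * (r ^ 3 * D) + 12 * (t ^ 2 * r * D) := by rw [hAd, hDd]; ring
  have e7 : 11 * t ^ 7 = -6 * (r ^ 3 * A) + 22 * (t * r ^ 2 * A) - 6 * (t ^ 2 * r * A)
      + (t ^ 3 * A) + 6 * (r ^ 3 * D) - 10 * (t * r ^ 2 * D) - 2 * (t ^ 2 * r * D)
      + 11 * (t ^ 3 * D) := by rw [hAd, hDd]; ring
  rcases hM with rfl | rfl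
  · rcases abs_choice t with e | e <;> simp only [e, neg_pow t 7] at * <;>
      ring_nf at * <;> linarith
  · rcases abs_choice r with e | e <;> simp only [e, neg_pow r 7] at * <;>
      ring_nf at * <;> linarith

theorem step_lt {t r M H : ℤ} (hM : 3 ≤ M) (ht : |t| ≤ M) (hr : |r| ≤ M)
    (hb : 11 * M ^ 7 ≤ 71 * (M ^ 3 * H)) : max |t| |t - r| < H := by
  have h4 : 11 * M ^ 4 ≤ 71 * H := by
    refine le_of_mul_le_mul_left (a := M ^ 3) ?_ (by positivity)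
    calc M ^ 3 * (11 * M ^ 4) = 11 * M ^ 7 := by ring
      _ ≤ 71 * (M ^ 3 * H) := hb
      _ = M ^ 3 * (71 * H) := by ring
  have h27 : 27 * M ≤ M ^ 4 := by
    have : (3 : ℤ) ^ 3 ≤ M ^ 3 := pow_le_pow_left₀ (by norm_num) hM 3
    calc 27 * M ≤ M ^ 3 * M := by nlinarith
      _ = M ^ 4 := by ring
  have := abs_sub t r
  exact max_lt (by linarith) (by linarith)

theorem small_cases : ∀ t ∈ Finset.Icc (-2 : ℤ) 2, ∀ r ∈ Finset.Icc (-2 : ℤ) 2,
    Int.gcd t r = 1 →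
    t ^ 4 + 2 * r ^ 2 * t ^ 2 - 4 * r ^ 3 * t + r ^ 4 < 144 ∧
    ((∀ e ∈ Finset.range 6, (2 * (e : ℤ) + 1) ^ 2 ≠ t ^ 4 + 2 * r ^ 2 * t ^ 2 - 4 * r ^ 3 * t + r ^ 4) ∨
      r ^ 4 + 2 * r * t ^ 3 - 2 * r ^ 3 * t = 0 ∨
      r ^ 4 + 2 * r * t ^ 3 - 2 * r ^ 3 * t
        = t ^ 4 + 2 * r ^ 2 * t ^ 2 - 4 * r ^ 3 * t + r ^ 4) := by
  decide +kernel

theorem odd_case : ∀ (N : ℕ) (a d w : ℤ), (max |a| (d ^ 2)).natAbs = N → IsCoprime a d →
    ¬ (2 : ℤ) ∣ d → w ^ 2 = 4 * a ^ 3 - 4 * a ^ 2 * d ^ 2 + d ^ 6 → a = 0 ∨ a = d ^ 2 := by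
  intro N
  induction N using Nat.strong_induction_on with
  | _ N ih =>
  intro a d w hN hc hd hw
  obtain ⟨⟨c0, c1, c2⟩, h⟩ := exists_sq_odd hc hd hw
  simp only [mul3, Prod.ext_iff] at h
  obtain ⟨h0, h1, h2⟩ := h
  have ha : a = c2 ^ 2 - c0 * c1 := by linarith
  set u := c1 + 2 * c2 with hu
  have key : u * (c0 + u) = c2 ^ 2 := by rw [hu]; linarith
  have cop : IsCoprime u (c0 + u) := by
    refine isCoprime_of_prime_dvd ?_ fun p pp pu pv => ?_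
    · rintro ⟨hu0, hv0⟩
      apply hd
      apply Int.prime_two.dvd_of_dvd_pow (n := 2)
      rw [← h0, show c0 = 0 by linarith]
      exact ⟨-(2 * c1 * c2 + 2 * c2 ^ 2), by ring⟩
    · have p0 : p ∣ c0 := by simpa using pv.sub pu
      have p2 : p ∣ c2 := pp.dvd_of_dvd_pow (n := 2) (key ▸ pu.mul_right _)
      have p1 : p ∣ c1 := by
        have := pu.sub (p2.mul_left 2)
        rwa [hu, add_sub_cancel_right] at this
      obtain ⟨q0, rfl⟩ := p0; obtain ⟨q1, rfl⟩ := p1; obtain ⟨q2, rfl⟩ := p2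
      refine pp.not_isUnit (hc.isUnit_of_dvd' ?_ ?_)
      · exact ⟨p * q2 ^ 2 - p * q0 * q1, by rw [ha]; ring⟩
      · refine pp.dvd_of_dvd_pow (n := 2) ⟨p * q0 ^ 2 - 4 * p * q1 * q2 - 4 * p * q2 ^ 2, ?_⟩
        rw [← h0]; ring
  obtain ⟨σ, r₀, hσ, hr₀⟩ : ∃ σ r : ℤ, (σ = 1 ∨ σ = -1) ∧ u = σ * r ^ 2 := by
    obtain ⟨r, hr | hr⟩ := Int.sq_of_isCoprime cop key
    · exact ⟨1, r, Or.inl rfl, by rw [hr]; ring⟩
    · exact ⟨-1, r, Or.inr rfl, by rw [hr]; ring⟩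
  obtain ⟨σ', t₀, hσ', ht₀⟩ : ∃ σ r : ℤ, (σ = 1 ∨ σ = -1) ∧ c0 + u = σ * r ^ 2 := by
    obtain ⟨r, hr | hr⟩ := Int.sq_of_isCoprime cop.symm (by rw [mul_comm]; exact key)
    · exact ⟨1, r, Or.inl rfl, by rw [hr]; ring⟩
    · exact ⟨-1, r, Or.inr rfl, by rw [hr]; ring⟩
  obtain ⟨r, t, ε, hε, er, et, ec2⟩ : ∃ r t ε : ℤ, (ε = 1 ∨ ε = -1) ∧ u = ε * r ^ 2 ∧
      c0 + u = ε * t ^ 2 ∧ c2 = ε * (r * t) := by
    have hsq : σ * σ' * (r₀ * t₀) ^ 2 = c2 ^ 2 := by rw [← key, ht₀, hr₀]; ring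
    by_cases hz : r₀ * t₀ = 0
    · rw [hz] at hsq
      have hc20 : c2 = 0 := by simpa using hsq.symm
      rcases mul_eq_zero.1 hz with rfl | rfl
      · exact ⟨0, t₀, σ', hσ', by rw [hr₀]; ring, ht₀, by rw [hc20]; ring⟩
      · exact ⟨r₀, 0, σ, hσ, hr₀, by rw [ht₀]; ring, by rw [hc20]; ring⟩
    · have hpos : 0 < (r₀ * t₀) ^ 2 := by positivity
      have hss : σ' = σ := by
        rcases hσ with rfl | rfl <;> rcases hσ' with rfl | rfl <;> first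
          | rfl
          | (exfalso; have := sq_nonneg c2; linarith)
      subst hss
      have : c2 ^ 2 = (σ' * (r₀ * t₀)) ^ 2 := by rw [← hsq]; ring
      rcases eq_or_eq_neg_of_sq_eq_sq c2 _ this with hh | hh
      · exact ⟨r₀, t₀, σ', hσ, hr₀, ht₀, hh⟩
      · exact ⟨-r₀, t₀, σ', hσ, by rw [hr₀]; ring, ht₀, by rw [hh]; ring⟩
  have e0 : c0 = ε * (t ^ 2 - r ^ 2) := by linarith
  have e1 : c1 = ε * (r ^ 2 - 2 * r * t) := by linarith
  have hA : a = r ^ 4 + 2 * r * t ^ 3 - 2 * r ^ 3 * t := by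
    rw [ha, e0, e1, ec2]; rcases hε with rfl | rfl <;> ring
  have hD : d ^ 2 = t ^ 4 + 2 * r ^ 2 * t ^ 2 - 4 * r ^ 3 * t + r ^ 4 := by
    rw [← h0, e0, e1, ec2]; rcases hε with rfl | rfl <;> ring
  have coptr : IsCoprime t r := by
    have := cop
    rw [et, er] at this
    exact ((this.of_isCoprime_of_dvd_left ⟨ε * r, by ring⟩).of_isCoprime_of_dvd_right
      ⟨ε * t, by ring⟩).symm
  have small : t = 0 ∨ r = 0 → a = 0 ∨ a = d ^ 2 := by
    rintro (rfl | rfl)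
    · refine Or.inr ?_
      rw [hA, hD]; ring
    · exact Or.inl (by rw [hA]; ring)
  set v := t - r with hv
  have hsplit : v * (4 * t ^ 3 - 4 * t ^ 2 * v + v ^ 3) = d ^ 2 := by rw [hD, hv]; ring
  have hv2 : ¬ (2 : ℤ) ∣ v := fun hh => hd (Int.prime_two.dvd_of_dvd_pow (n := 2)
    (hsplit ▸ hh.mul_right _))
  have coptv : IsCoprime t v := by
    have := coptr.neg_right.add_mul_left_right 1
    rwa [show -r + t * 1 = v by rw [hv]; ring] at this
  have copv : IsCoprime v (4 * t ^ 3 - 4 * t ^ 2 * v + v ^ 3) := by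
    have c2v : IsCoprime v 2 := ((Int.prime_two.coprime_iff_not_dvd).2 hv2).symm
    have : IsCoprime v (2 * 2 * t ^ 3) := (c2v.mul_right c2v).mul_right coptv.symm.pow_right
    have := this.add_mul_left_right (v ^ 2 - 4 * t ^ 2)
    rwa [show 2 * 2 * t ^ 3 + v * (v ^ 2 - 4 * t ^ 2) = 4 * t ^ 3 - 4 * t ^ 2 * v + v ^ 3 by ring]
      at this
  obtain ⟨τ, k, hτ, hk⟩ : ∃ τ k : ℤ, (τ = 1 ∨ τ = -1) ∧ v = τ * k ^ 2 := by
    obtain ⟨r, hr | hr⟩ := Int.sq_of_isCoprime copv hsplit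
    · exact ⟨1, r, Or.inl rfl, by rw [hr]; ring⟩
    · exact ⟨-1, r, Or.inr rfl, by rw [hr]; ring⟩
  obtain ⟨l, hl⟩ : k ∣ d := by
    rw [← Int.pow_dvd_pow_iff two_ne_zero]
    exact ⟨τ * (4 * t ^ 3 - 4 * t ^ 2 * v + v ^ 3), by rw [← hsplit, hk]; ring⟩
  have hk2 : ¬ (2 : ℤ) ∣ k := fun hh => hd (hl ▸ hh.mul_right _)
  have hk0 : k ≠ 0 := fun hh => hk2 (hh ▸ dvd_zero 2)
  have hinner : l ^ 2 = 4 * (τ * t) ^ 3 - 4 * (τ * t) ^ 2 * k ^ 2 + k ^ 6 := by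
    refine mul_left_cancel₀ (pow_ne_zero 2 hk0) ?_
    calc k ^ 2 * l ^ 2 = d ^ 2 := by rw [hl]; ring
      _ = k ^ 2 * (4 * (τ * t) ^ 3 - 4 * (τ * t) ^ 2 * k ^ 2 + k ^ 6) := by
        rw [← hsplit, hk]; rcases hτ with rfl | rfl <;> ring
  have hcop' : IsCoprime (τ * t) k := by
    have : IsCoprime t k := coptv.of_isCoprime_of_dvd_right ⟨τ * k, by rw [hk]; ring⟩
    rcases hτ with rfl | rfl
    · simpa using this
    · simpa using this.neg_left
  have abst : |τ * t| = |t| := by rcases hτ with rfl | rfl <;> simp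
  have k2v : k ^ 2 = |v| := by rcases hτ with rfl | rfl <;> rw [hk] <;> simp
  have fin : τ * t = 0 ∨ τ * t = k ^ 2 → a = 0 ∨ a = d ^ 2 := by
    intro hh
    apply small
    rcases hτ with rfl | rfl
    · rcases hh with hh | hh
      · exact Or.inl (by linarith)
      · exact Or.inr (by linarith)
    · rcases hh with hh | hh
      · exact Or.inl (by linarith)
      · exact Or.inr (by linarith)
  obtain ⟨M, hMt, hMr, hM⟩ : ∃ M, |t| ≤ M ∧ |r| ≤ M ∧ (M = |t| ∨ M = |r|) :=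
    ⟨_, le_max_left _ _, le_max_right _ _, max_choice _ _⟩
  by_cases hM3 : 3 ≤ M
  · apply fin
    refine ih _ ?_ (τ * t) k l rfl hcop' hk2 hinner
    set H := max |a| (d ^ 2) with hH
    have hb := height_bound hMt hMr hM (H := H) (hA ▸ le_max_left _ _)
      (by rw [← hD, abs_of_nonneg (sq_nonneg d)]; exact le_max_right _ _)
    have hlt : max |τ * t| (k ^ 2) < H := by
      rw [abst, k2v]; exact step_lt hM3 hMt hMr hb
    have : 0 ≤ max |τ * t| (k ^ 2) := (abs_nonneg _).trans (le_max_left _ _)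
    rw [← hN]; omega
  · have M2 : M ≤ 2 := by omega
    have t1 := abs_le.1 (hMt.trans M2)
    have r1 := abs_le.1 (hMr.trans M2)
    obtain ⟨hlt, hh | hh | hh⟩ := small_cases t (Finset.mem_Icc.2 t1) r (Finset.mem_Icc.2 r1)
        (Int.isCoprime_iff_gcd_eq_one.1 coptr)
    · exfalso
      obtain ⟨j, hj⟩ : Odd d.natAbs := by
        rw [Int.natAbs_odd, ← Int.not_even_iff_odd]; exact fun hev => hd hev.two_dvd
      have habs : d.natAbs < 12 := by
        have hd144 : d ^ 2 < 12 ^ 2 := by rw [hD]; norm_num; exact hlt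
        have := sq_lt_sq.1 hd144
        rw [Int.abs_eq_natAbs, abs_of_pos (by norm_num : (0 : ℤ) < 12)] at this
        omega
      refine hh j (Finset.mem_range.2 (by omega)) ?_
      rw [← hD, ← Int.natAbs_sq d, hj]; push_cast; ring
    · exact Or.inl (hA.trans hh)
    · exact Or.inr (hA.trans (hh.trans hD.symm))

/-- The rational points of `X₁(11)`: all have `x = 0` or `x = 1`. -/
theorem rat_points {x y : ℚ} (h : y ^ 2 - y = x ^ 3 - x ^ 2) : x = 0 ∨ x = 1 := by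
  have hx := Rat.num_div_den x
  have hy := Rat.num_div_den y
  set p := x.num; set r := y.num
  set q : ℤ := (x.den : ℤ) with hq'
  set s : ℤ := (y.den : ℤ) with hs'
  have hq : 0 < q := by positivity
  have hs : 0 < s := by positivity
  have cpq : IsCoprime p q := Int.isCoprime_iff_nat_coprime.2 (by simpa [p, q] using x.reduced)
  have crs : IsCoprime r s := Int.isCoprime_iff_nat_coprime.2 (by simpa [r, s] using y.reduced)
  have heq : (r ^ 2 - r * s) * q ^ 3 = (p ^ 3 - p ^ 2 * q) * s ^ 2 := by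
    have hq0 : (q : ℚ) ≠ 0 := by exact_mod_cast hq.ne'
    have hs0 : (s : ℚ) ≠ 0 := by exact_mod_cast hs.ne'
    rw [← hx, ← hy] at h
    have : ((r : ℚ) ^ 2 - r * s) * q ^ 3 = ((p : ℚ) ^ 3 - p ^ 2 * q) * s ^ 2 := by
      have e1 : ((x.den : ℕ) : ℚ) = (q : ℚ) := by simp [hq']
      have e2 : ((y.den : ℕ) : ℚ) = (s : ℚ) := by simp [hs']
      rw [e1, e2] at h
      field_simp at h
      linear_combination h
    exact_mod_cast this
  have sq : s ^ 2 = q ^ 3 := by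
    refine Int.dvd_antisymm (by positivity) (by positivity) ?_ ?_
    · refine (IsCoprime.pow_left (m := 2) ?_).dvd_of_dvd_mul_left
        (show s ^ 2 ∣ (r ^ 2 - r * s) * q ^ 3 from ⟨p ^ 3 - p ^ 2 * q, by linear_combination heq⟩)
      have := (crs.symm.mul_right (crs.symm.add_mul_left_right (-1)))
      rwa [show r * (r + s * -1) = r ^ 2 - r * s by ring] at this
    · refine (IsCoprime.pow_left (m := 3) ?_).dvd_of_dvd_mul_left
        (show q ^ 3 ∣ (p ^ 3 - p ^ 2 * q) * s ^ 2 from ⟨r ^ 2 - r * s, by linear_combination -heq⟩)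
      have := (cpq.symm.mul_right (cpq.symm.mul_right (cpq.symm.add_mul_left_right (-1))))
      rwa [show p * (p * (p + q * -1)) = p ^ 3 - p ^ 2 * q by ring] at this
  obtain ⟨d, hd⟩ : q ∣ s := by
    rw [← Int.pow_dvd_pow_iff two_ne_zero]; exact ⟨q, by rw [sq]; ring⟩
  have hqd : q = d ^ 2 := mul_left_cancel₀ (pow_ne_zero 2 hq.ne') (by
    calc q ^ 2 * q = s ^ 2 := by rw [sq]; ring
      _ = q ^ 2 * d ^ 2 := by rw [hd]; ring)
  have hsd : s = d ^ 3 := by rw [hd, hqd]; ring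
  have hd0 : d ≠ 0 := by rintro rfl; exact hq.ne' (by rw [hqd]; ring)
  have eq' : r ^ 2 - r * d ^ 3 = p ^ 3 - p ^ 2 * d ^ 2 := by
    refine mul_right_cancel₀ (pow_ne_zero 6 hd0) ?_
    rw [hqd, hsd] at heq; linear_combination heq
  have cpd : IsCoprime p d := cpq.of_isCoprime_of_dvd_right ⟨d, by rw [hqd]; ring⟩
  have hxval : x = (p : ℚ) / (d : ℚ) ^ 2 := by
    rw [← hx]
    congr 1
    have : (q : ℚ) = (d : ℚ) ^ 2 := by exact_mod_cast hqd
    rw [← this]; simp [hq']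
  by_cases h2 : (2 : ℤ) ∣ d
  · exfalso
    obtain ⟨e, rfl⟩ := h2
    exact hd0 (by rw [even_case _ p e (r - 4 * e ^ 3) rfl cpd (by linear_combination eq')]; ring)
  · rcases odd_case _ p d (2 * r - d ^ 3) rfl cpd h2 (by linear_combination 4 * eq') with hh | hh
    · left; rw [hxval, hh]; simp
    · right
      rw [hxval, hh]; push_cast
      exact div_self (pow_ne_zero 2 (by exact_mod_cast hd0))

end Fermat.Agent.Eleven
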