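import Fermat.Agent.Eleven.Descent
import Fermat.Agent.Isogeny.TateNormalForm

/-!
No elliptic curve over `ℚ` has a rational point of order `11`.
-/

open WeierstrassCurve WeierstrassCurve.Affine

namespace Fermat.Agent.Eleven

/-- The equation of `X₁(11)` in Reichert's coordinates has only cuspidal solutions. -/
theorem no_reichert {r s : ℚ} (hs0 : s ≠ 0) (hs1 : s ≠ 1)
    (h : r ^ 2 - 4 * r * s + 3 * r * s ^ 2 - r * s ^ 3 + s = 0) : False := by
  obtain ⟨x, rfl⟩ : ∃ x, s = 1 - x := ⟨1 - s, by ring⟩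
  have hx : x ≠ 0 := fun e => hs1 (by rw [e]; ring)
  have hx1 : x - 1 ≠ 0 := fun e => hs0 (by linear_combination -e)
  set Y := (2 * r - (2 - x - x ^ 3)) / x with hY
  have hY2 : Y ^ 2 = x ^ 4 + 2 * x ^ 2 - 4 * x + 1 := by
    rw [hY, div_pow, div_eq_iff (pow_ne_zero 2 hx)]
    linear_combination 4 * h
  set z := x / (x - 1) with hz
  set y := (Y / (x - 1) ^ 2 + 1) / 2 with hy
  have hcurve : y ^ 2 - y = z ^ 3 - z ^ 2 := by
    rw [hy, hz]
    field_simp
    linear_combination hY2
  rcases rat_points hcurve with h0 | h1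
  · exact hx (by simpa [hz, hx1] using h0)
  · rw [hz, div_eq_one_iff_eq hx1] at h1
    linarith

/-- There is no rational point of order `11` on an elliptic curve over `ℚ`. -/
theorem addOrderOf_ne_eleven (W : WeierstrassCurve ℚ) [W.IsElliptic] (P : W.toAffine.Point) :
    addOrderOf P ≠ 11 := by
  intro h
  obtain ⟨b, c, C, -, hb, hE, e, hns, he⟩ := Isogeny.exists_tateNormalForm W P
    (Isogeny.nsmul_ne_zero_of_lt h two_pos (by norm_num))
    (Isogeny.nsmul_ne_zero_of_lt h three_pos (by norm_num))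
  have := hE
  have h' : addOrderOf (Affine.Point.some 0 0 hns) = 11 := by
    rw [← he, ← h]; exact addOrderOf_injective e.toAddMonoidHom e.injective P
  obtain ⟨r, s, -, -, -, -, hs0, hs1, -, heq⟩ := Isogeny.tate_order_eleven hb hns h'
  exact no_reichert hs0 hs1 heq

end Fermat.Agent.Eleven
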